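/-
ISOG (track S12), package (P2-rest)/(Ind) (helper1), part 1: **one level of the tower**.

* `mz2t_val_key` : the valuation bookkeeping `v(U_i) · v(J_i)^(p-1) · v(Π_{i+1})^4 = 1`;
* `mz2t_J_ne_const`, `mz2t_U_ne_const` : `j` and `U_p` are not constant;
* `mz2t_shape` : the two valuation shapes of `(j₁, j₂)` at a place of `X₀(p)` with given
  `(j, U_p, j_p)`-values, decided by `v(U₁) · v(j₁)^(p-1) = 1` or not (from `mzg_convert`,
  `mzg_newton_small`);
* `mz2t_fixed` : a place through a rational simple point is Galois-fixed (`mzgn_galois_fixed` in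
  `OrdGE` form);
* `mz2t_value_fixed` : the value of a Galois-fixed function at a Galois-fixed place is rational.
-/
import Fermat.Agent.Lib.Mazur.G.Main.Main
import Fermat.Agent.Lib.Mazur2.Pl.Chain

set_option autoImplicit false
set_option linter.unusedSectionVars false
set_option linter.style.haveILetI false

open WeierstrassCurve WeierstrassCurve.Affine

namespace Fermat.Agent.Mazur2

open ModularCurve Polynomial
open AlgebraicCurve Fermat.Agent.Curve Fermat.Agent.Curve.PlaceAux Fermat.Agent.Igusa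
  Fermat.Agent.T1 Fermat.Agent.T2 Fermat.Agent.ET Fermat.Agent.Mazur

local notation "Qb" => AlgebraicClosure ℚ
local notation "GQ" => (AlgebraicClosure ℚ ≃ₐ[ℚ] AlgebraicClosure ℚ)

section Val

variable {Γ : Type*} [CommGroupWithZero Γ]

/-- the valuation bookkeeping of one level: `a = v(Δ)`, `b = v(J₀)`, `d = v(D_i)`,
`d' = v(D_{i+1})`, `π = v(Π_i)`, `π' = v(Π_{i+1})`, `u = v(U_i)`, `n = p^i` -/
theorem mz2t_val_key {a b u d d' π π' : Γ} {n p : ℕ} (hn : 0 < n) (hp : 0 < p)
    (hab : b * a = 1) (hd : d * π ^ 4 = a ^ (n - 1)) (hd' : d' * π' ^ 4 = a ^ (n * p - 1))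
    (hu : u * d = d') (hπ : π = 1) : u * (b ^ n) ^ (p - 1) * π' ^ 4 = 1 := by
  subst hπ
  rw [one_pow, mul_one] at hd
  have ha : a ≠ 0 := by
    rintro rfl
    rw [mul_zero] at hab
    exact zero_ne_one hab
  have hexp : n * p - 1 = n * (p - 1) + (n - 1) := by
    obtain ⟨n', rfl⟩ := Nat.exists_eq_succ_of_ne_zero hn.ne'
    obtain ⟨p', rfl⟩ := Nat.exists_eq_succ_of_ne_zero hp.ne'
    simp only [Nat.succ_sub_one, Nat.succ_eq_add_one]
    have : (n' + 1) * (p' + 1) = (n' + 1) * p' + n' + 1 := by ring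
    omega
  have h1 : u * π' ^ 4 * a ^ (n - 1) = a ^ (n * (p - 1)) * a ^ (n - 1) := by
    rw [← pow_add, ← hexp, ← hd', ← hu, hd]
    ac_rfl
  have h2 : u * π' ^ 4 = a ^ (n * (p - 1)) := mul_right_cancel₀ (pow_ne_zero _ ha) h1
  calc u * (b ^ n) ^ (p - 1) * π' ^ 4 = (u * π' ^ 4) * b ^ (n * (p - 1)) := by
        rw [← pow_mul]
        ac_rfl
    _ = (b * a) ^ (n * (p - 1)) := by
        rw [h2, mul_pow, mul_comm]
    _ = 1 := by rw [hab, one_pow]

end Val

section Place

variable {p : ℕ} [NeZero p]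

/-- constants in the Laurent series field -/
theorem mz2t_coe_const (a : Qb) :
    ((algebraMap Qb ↥(modularFunctionFieldBar p) a : ↥(modularFunctionFieldBar p)) :
      LaurentSeries Qb) = HahnSeries.C a := by
  show algebraMap Qb (LaurentSeries Qb) a = HahnSeries.C a
  have h0 : algebraMap Qb (PowerSeries Qb) a = PowerSeries.C a := by simp
  rw [HahnSeries.algebraMap_apply', h0, HahnSeries.ofPowerSeries_C]

/-- `j` is not constant -/
theorem mz2t_J_ne_const (a : Qb) :
    tbJ p ≠ algebraMap Qb ↥(modularFunctionFieldBar p) a := by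
  intro h
  have h1 := congrArg (fun y : ↥(modularFunctionFieldBar p) => (y : LaurentSeries Qb)) h
  simp only [coe_tbJ] at h1
  rw [mz2t_coe_const] at h1
  have h3 := congrArg HahnSeries.order h1
  rw [S24Lib.order_jqModC, HahnSeries.order_C] at h3
  omega

/-- `U_p` is not constant -/
theorem mz2t_U_ne_const (hp : 2 ≤ p) (a : Qb) :
    mzgU p p (dvd_refl p) ≠ algebraMap Qb ↥(modularFunctionFieldBar p) a := by
  intro h
  have h1 := congrArg (fun y : ↥(modularFunctionFieldBar p) => (y : LaurentSeries Qb)) h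
  simp only [coe_mzgU] at h1
  rw [mz2t_coe_const] at h1
  have h3 : (unitInfLS Qb p).coeff 0 = 0 :=
    unitInfLS_coeff_eq_zero_of_lt (k := Qb) p (by
      have : (2 : ℤ) ≤ (p : ℤ) := by exact_mod_cast hp
      omega)
  rw [h1, HahnSeries.C_apply, HahnSeries.coeff_single_same] at h3
  rw [h3, map_zero] at h1
  exact unitInfLS_ne_zero (k := Qb) p (by exact_mod_cast NeZero.ne p) h1

end Place

section Shape

variable {p : ℕ} [NeZero p]

/-- uniqueness of the value of a function at a place -/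
theorem mz2t_value_unique (x : Place Qb ↥(modularFunctionFieldBar p))
    (f : ↥(modularFunctionFieldBar p)) {c c' : Qb}
    (h : OrdGE x (f - algebraMap Qb ↥(modularFunctionFieldBar p) c) 1)
    (h' : OrdGE x (f - algebraMap Qb ↥(modularFunctionFieldBar p) c') 1) : c = c' := by
  have hgen := t2cp_isFunctionFieldGen_tbJ p
  have hf : f ∈ x.toValuationSubring := mzg_mem_of_ordGE x h
  have h1 : mzgVal hgen x ⟨f, hf⟩ = c := mzgVal_eq_of_ordGE hgen x h
  have h2 : mzgVal hgen x ⟨f, hf⟩ = c' := mzgVal_eq_of_ordGE hgen x h'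
  rw [← h1, h2]

/-- **the two valuation shapes at one level**: at a place of `X₀(p)` with `(j, U_p, j_p)`-values
`(j₁, U₁, j₂)` and a valuation `v` of `ℚ̄` with `v(p) = 1 < v(j₁)`:
`v(U₁) v(j₁)^(p-1) = 1` ⇒ `v(j₂) = v(j₁)^p` and the point `(j₁, U₁)` of the plane model is simple;
`v(U₁) v(j₁)^(p-1) ≠ 1` ⇒ `v(j₁) = v(j₂)^p`. -/
theorem mz2t_shape (hp : p.Prime) (x : Place Qb ↥(modularFunctionFieldBar p)) (j₁ U₁ j₂ : Qb)
    (hj : OrdGE x (tbJ p - algebraMap Qb ↥(modularFunctionFieldBar p) j₁) 1)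
    (hU : OrdGE x (mzgU p p (dvd_refl p) - algebraMap Qb ↥(modularFunctionFieldBar p) U₁) 1)
    (hj₂ : OrdGE x (t2cpYq p p (dvd_refl p) - algebraMap Qb ↥(modularFunctionFieldBar p) j₂) 1)
    (A : ValuationSubring Qb) (hAp : A.valuation (p : Qb) = 1) (h1 : 1 < A.valuation j₁) :
    (A.valuation U₁ * A.valuation j₁ ^ (p - 1) = 1 →
      A.valuation j₂ = A.valuation j₁ ^ p ∧
        evalEval j₁ U₁ (derivative (modPsiK p hp Qb)) ≠ 0) ∧
    (A.valuation U₁ * A.valuation j₁ ^ (p - 1) ≠ 1 →
      A.valuation j₁ = A.valuation j₂ ^ p) := by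
  obtain ⟨j₂', hj₂', hconv⟩ := mzg_convert hp x j₁ U₁ hj hU
  obtain ⟨-, -, hrel1, -⟩ := mzg_convert_rel hp x j₁ U₁ hj hU
  have hjj : j₂' = j₂ := mz2t_value_unique x _ hj₂' hj₂
  subst hjj
  have hp1 : p - 1 ≠ 0 := by have := hp.two_le; omega
  have hpow : 1 < A.valuation j₁ ^ (p - 1) := one_lt_pow₀ h1 hp1
  refine ⟨fun hprod => ?_, fun hprod => ?_⟩
  · have hvU1 : A.valuation U₁ < 1 := by
      by_contra hle
      rw [not_lt] at hle
      have : 1 < A.valuation U₁ * A.valuation j₁ ^ (p - 1) :=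
        lt_of_lt_of_le hpow (le_mul_of_one_le_left zero_le hle)
      rw [hprod] at this
      exact lt_irrefl _ this
    refine ⟨(hconv A hAp h1).1 hvU1, ?_⟩
    have hsmall := (mzg_newton_small A.valuation hp hAp h1 hrel1 hvU1.le).2
    intro h0
    rw [h0, map_zero] at hsmall
    exact (ne_of_gt (lt_trans zero_lt_one hpow)) hsmall.symm
  · have hvU1 : 1 < A.valuation U₁ := by
      by_contra hle
      rw [not_lt] at hle
      exact hprod (mzg_newton_small A.valuation hp hAp h1 hrel1 hle).1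
    exact (hconv A hAp h1).2 hvU1

/-- a place through a `ℚ`-rational simple point of the plane model is Galois-fixed -/
theorem mz2t_fixed (hp : p.Prime) (x : Place Qb ↥(modularFunctionFieldBar p)) (j₁ U₁ : Qb)
    (hj : OrdGE x (tbJ p - algebraMap Qb ↥(modularFunctionFieldBar p) j₁) 1)
    (hU : OrdGE x (mzgU p p (dvd_refl p) - algebraMap Qb ↥(modularFunctionFieldBar p) U₁) 1)
    (hj₁fix : ∀ σ : GQ, σ j₁ = j₁) (hU₁fix : ∀ σ : GQ, σ U₁ = U₁)
    (hsimple : evalEval j₁ U₁ (derivative (modPsiK p hp Qb)) ≠ 0) (σ : GQ) :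
    arithmeticGalois (modularFunctionFieldFull p) σ • x = x := by
  have hxj : 0 < x.ord (tbJ p - algebraMap Qb ↥(modularFunctionFieldBar p) j₁) := by
    rcases (ordGE_iff x).mp hj with h0 | h0
    · exact absurd (sub_eq_zero.mp h0) (mz2t_J_ne_const j₁)
    · omega
  have hxU : 0 < x.ord (mzgpU p - algebraMap Qb ↥(modularFunctionFieldBar p) U₁) := by
    have hUU : mzgU p p (dvd_refl p) = mzgpU p := rfl
    rw [← hUU]
    rcases (ordGE_iff x).mp hU with h0 | h0
    · exact absurd (sub_eq_zero.mp h0) (mz2t_U_ne_const hp.two_le U₁)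
    · omega
  exact mzgn_galois_fixed p hp j₁ U₁ hj₁fix hU₁fix
    (by rw [mzgn_simple_eq]; exact hsimple) x hxj hxU σ

/-- the value of a Galois-fixed function at a Galois-fixed place is Galois-fixed -/
theorem mz2t_value_fixed (x : Place Qb ↥(modularFunctionFieldBar p)) (σ : GQ)
    (hx : arithmeticGalois (modularFunctionFieldFull p) σ • x = x)
    (Y : ↥(modularFunctionFieldBar p))
    (hY : arithmeticGalois (modularFunctionFieldFull p) σ • Y = Y) (c : Qb)
    (hc : OrdGE x (Y - algebraMap Qb ↥(modularFunctionFieldBar p) c) 1) : σ c = c := by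
  have h1 : arithmeticGalois (modularFunctionFieldFull p) σ •
      (Y - algebraMap Qb ↥(modularFunctionFieldBar p) c) =
      Y - algebraMap Qb ↥(modularFunctionFieldBar p) (σ c) := by
    rw [smul_sub, hY, SemilinearAut.smul_algebraMap]
    rfl
  have h2 : OrdGE x (Y - algebraMap Qb ↥(modularFunctionFieldBar p) (σ c)) 1 := by
    rw [ordGE_iff] at hc ⊢
    rcases hc with h0 | h0
    · left
      rw [← h1, h0, smul_zero]
    · right
      have h3 := SemilinearAut.ord_smul (arithmeticGalois (modularFunctionFieldFull p) σ) x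
        (Y - algebraMap Qb ↥(modularFunctionFieldBar p) c)
      rw [hx, h1] at h3
      omega
  exact mz2t_value_unique x Y h2 hc

/-- `j_p` is fixed by the arithmetic Galois action -/
theorem mz2t_smul_Y (σ : GQ) :
    arithmeticGalois (modularFunctionFieldFull p) σ • t2cpYq p p (dvd_refl p) =
      t2cpYq p p (dvd_refl p) := by
  apply Subtype.ext
  rw [coe_arithmeticGalois_smul, coe_t2cpYq, coeffMap_qExpand, coeffMap_jqModC]

end Shape

end Fermat.Agent.Mazur2
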