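/-
ISOG (track S12), package (P2-rest)/(Loc) (helper1): **the local part LOC for points of arbitrary
odd order** (tower version of `Lib/Mazur/G/Loc/{Sing,Local}.lean`, which treat prime order).

For a Weierstrass curve `W` over `ℤ` with `Δ ≠ 0`, a point `Q` of order `d` over `ℚ̄` and a
valuation subring `A` of `ℚ̄` in which `d` is a unit:
* `mz2t_local_I`  : `d` odd, `Q` in the zero component at `A` ⇒ `v(∏_{0<m<d} ψ₂(mQ)) = 1`;
* `mz2t_local_II` : `Q` not in the zero component at `A` ⇒ `v(∏_{0<m<d} ψ₂(mQ)) < 1`;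
* `mz2t_inZero_nsmul` : the multiples of a torsion point (of order prime to the residue
  characteristic) in the zero component are in the zero component.
-/
import Fermat.Agent.Lib.Mazur.G.Loc.Local

set_option autoImplicit false
set_option linter.unusedSectionVars false
set_option linter.style.haveILetI false

open WeierstrassCurve WeierstrassCurve.Affine
open Fermat.Agent.ET

namespace Fermat.Agent.Mazur2

open Fermat.Agent.Mazur

section Model

variable {K : Type*} [Field K] [DecidableEq K] {A : ValuationSubring K}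
  (W : WeierstrassCurve ↥A) [(W.map A.subtype).IsElliptic]

/-- **Case I**, any odd order `d` (a unit of `A`): `∏ ψ₂(mQ)` is a unit. -/
theorem mz2t_caseI {d : ℕ} (hd : Odd d) (hAd : A.valuation (d : K) = 1)
    {Q : (W.map A.subtype).toAffine.Point} (hQ : addOrderOf Q = d) (hg : MzglGood W Q) :
    A.valuation (mzgaPi (W.map A.subtype) Q d) = 1 := by
  have hdQ : d • Q = 0 := by rw [← hQ]; exact addOrderOf_nsmul_eq_zero Q
  unfold mzgaPi
  rw [map_prod]
  refine Finset.prod_eq_one fun m hm => ?_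
  refine mzgl_psi2_unit W hAd ?_ (mzgl_good_nsmul W hAd hdQ hg m) ?_
  · rw [smul_comm, hdQ, smul_zero]
  · intro h
    rw [← mul_nsmul'] at h
    have hdvd : d ∣ 2 * m := by rw [← hQ]; exact addOrderOf_dvd_of_nsmul_eq_zero h
    have h1 : d ∣ m := (Nat.Coprime.dvd_mul_left (Nat.coprime_two_right.mpr hd)).mp hdvd
    have := Finset.mem_Ico.mp hm
    exact absurd (Nat.le_of_dvd (by omega) h1) (by omega)

/-- **Case II**, any order `d` (a unit of `A`): `∏ ψ₂(mQ)` is a non-unit. -/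
theorem mz2t_caseII {d : ℕ} (hAd : A.valuation (d : K) = 1)
    {Q : (W.map A.subtype).toAffine.Point} (hQ : addOrderOf Q = d) (hb : ¬ MzglGood W Q) :
    A.valuation (mzgaPi (W.map A.subtype) Q d) < 1 := by
  have hdQ : d • Q = 0 := by rw [← hQ]; exact addOrderOf_nsmul_eq_zero Q
  have hd0 : d ≠ 0 := by
    rintro rfl
    rw [Nat.cast_zero, map_zero] at hAd
    exact zero_ne_one hAd
  have hd1 : d ≠ 1 := by
    rintro rfl
    exact hb (Or.inl (AddMonoid.addOrderOf_eq_one_iff.mp hQ))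
  have h1 : (1 : ℕ) ∈ Finset.Ico 1 d := Finset.mem_Ico.mpr ⟨le_refl _, by omega⟩
  unfold mzgaPi
  rw [← Finset.mul_prod_erase _ _ h1]
  refine etg_mul_lt' ?_ (prod_mem fun m _ => mzgl_psi2_mem W hAd (by rw [smul_comm, hdQ, smul_zero]))
  rw [one_smul]
  rcases Q with _ | ⟨x, y, h⟩
  · exact absurd (Or.inl rfl) hb
  obtain ⟨hx, hy⟩ := mzgl_integral W hAd h hdQ
  have E : W.toAffine.Equation (⟨x, hx⟩ : ↥A) ⟨y, hy⟩ := mzgl_equation_of_map W h.1
  have hmem := mzgl_psi2_mem W hAd hdQ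
  refine lt_of_le_of_ne ((A.valuation_le_one_iff _).mpr hmem) fun h1 => hb ?_
  exact Or.inr ⟨⟨x, hx⟩, ⟨y, hy⟩, h, rfl, (mzgl_ns_iff W E).mpr (Or.inl h1)⟩

end Model

section General

variable {K : Type*} [Field K] [DecidableEq K] {A : ValuationSubring K}
  (W : WeierstrassCurve ↥A)

/-- the 'zero component' predicate of the Prelude (`WeierstrassCurve.InZeroComponentAt`), for a
curve `WK` over `K` identified with the generic fibre of a model over `A` -/
def Mz2tTor (WK : WeierstrassCurve K) (Wk : WeierstrassCurve (IsLocalRing.ResidueField ↥A))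
    (Q : WK.toAffine.Point) : Prop :=
  Q = 0 ∨ ∃ (x y : K) (h : WK.toAffine.Nonsingular x y), Q = .some x y h ∧
    (x ∉ A ∨ ∃ (hx : x ∈ A) (hy : y ∈ A), Wk.toAffine.Nonsingular
      (IsLocalRing.residue ↥A ⟨x, hx⟩) (IsLocalRing.residue ↥A ⟨y, hy⟩))

/-- for torsion points of unit order, `Mz2tTor` is `MzglGood` -/
theorem mz2t_tor_iff_good [(W.map A.subtype).IsElliptic] {n : ℕ}
    (hAn : A.valuation (n : K) = 1) (Q : (W.map A.subtype).toAffine.Point) (hQ : n • Q = 0) :
    Mz2tTor (W.map A.subtype) (W.map (IsLocalRing.residue ↥A)) Q ↔ MzglGood W Q := by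
  constructor
  · rintro (h0 | ⟨x, y, h, rfl, hx | ⟨hx, hy, hns⟩⟩)
    · exact Or.inl h0
    · exact absurd (mzgl_integral W hAn h hQ).1 hx
    · exact Or.inr ⟨⟨x, hx⟩, ⟨y, hy⟩, h, rfl, hns⟩
  · rintro (h0 | ⟨x, y, h, rfl, hns⟩)
    · exact Or.inl h0
    · exact Or.inr ⟨x, y, h, rfl, Or.inr ⟨x.2, y.2, hns⟩⟩

theorem mz2t_local_I_gen (WK : WeierstrassCurve K) [WK.IsElliptic] (hK : W.map A.subtype = WK)
    (Wk : WeierstrassCurve (IsLocalRing.ResidueField ↥A))
    (hk : W.map (IsLocalRing.residue ↥A) = Wk)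
    {d : ℕ} (hd : Odd d) (hAd : A.valuation (d : K) = 1)
    (Q : WK.toAffine.Point) (hQ : addOrderOf Q = d) (hI : Mz2tTor WK Wk Q) :
    A.valuation (mzgaPi WK Q d) = 1 := by
  subst hK hk
  have hdQ : d • Q = 0 := by rw [← hQ]; exact addOrderOf_nsmul_eq_zero Q
  exact mz2t_caseI W hd hAd hQ ((mz2t_tor_iff_good W hAd Q hdQ).mp hI)

theorem mz2t_local_II_gen (WK : WeierstrassCurve K) [WK.IsElliptic] (hK : W.map A.subtype = WK)
    (Wk : WeierstrassCurve (IsLocalRing.ResidueField ↥A))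
    (hk : W.map (IsLocalRing.residue ↥A) = Wk)
    {d : ℕ} (hAd : A.valuation (d : K) = 1)
    (Q : WK.toAffine.Point) (hQ : addOrderOf Q = d) (hII : ¬ Mz2tTor WK Wk Q) :
    A.valuation (mzgaPi WK Q d) < 1 := by
  subst hK hk
  have hdQ : d • Q = 0 := by rw [← hQ]; exact addOrderOf_nsmul_eq_zero Q
  exact mz2t_caseII W hAd hQ fun hg => hII ((mz2t_tor_iff_good W hAd Q hdQ).mpr hg)

theorem mz2t_tor_nsmul_gen (WK : WeierstrassCurve K) [WK.IsElliptic]
    (hK : W.map A.subtype = WK)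
    (Wk : WeierstrassCurve (IsLocalRing.ResidueField ↥A))
    (hk : W.map (IsLocalRing.residue ↥A) = Wk)
    {n : ℕ} (hAn : A.valuation (n : K) = 1)
    (Q : WK.toAffine.Point) (hQ : n • Q = 0) (hI : Mz2tTor WK Wk Q) (m : ℕ) :
    Mz2tTor WK Wk (m • Q) := by
  subst hK hk
  have h1 : n • (m • Q) = 0 := by rw [smul_comm, hQ, smul_zero]
  exact (mz2t_tor_iff_good W hAn _ h1).mpr
    (mzgl_good_nsmul W hAn hQ ((mz2t_tor_iff_good W hAn Q hQ).mp hI) m)

end General

section Rat

local notation "Qb" => AlgebraicClosure ℚ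

/-- **tower LOC, case I**: a point of odd order `d` in the zero component. -/
theorem mz2t_local_I {d : ℕ} (hd : Odd d) (W : WeierstrassCurve ℤ)
    (hΔ : W.Δ ≠ 0) (Q : ((W.map (Int.castRingHom ℚ))⁄Qb).toAffine.Point)
    (hQord : addOrderOf Q = d) (A : ValuationSubring Qb) (hAd : A.valuation (d : Qb) = 1)
    (hI : W.InZeroComponentAt A Q) :
    A.valuation (mzgaPi ((W.map (Int.castRingHom ℚ))⁄Qb) Q d) = 1 := by
  have := mzgl_isElliptic W hΔ
  exact mz2t_local_I_gen (W.map (Int.castRingHom ↥A)) _ (mzgl_map_subtype W A) _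
    (mzgl_map_residue W A) hd hAd Q hQord hI

/-- **tower LOC, case II**: a point of order `d` outside the zero component. -/
theorem mz2t_local_II {d : ℕ} (W : WeierstrassCurve ℤ)
    (hΔ : W.Δ ≠ 0) (Q : ((W.map (Int.castRingHom ℚ))⁄Qb).toAffine.Point)
    (hQord : addOrderOf Q = d) (A : ValuationSubring Qb) (hAd : A.valuation (d : Qb) = 1)
    (hII : ¬ W.InZeroComponentAt A Q) :
    A.valuation (mzgaPi ((W.map (Int.castRingHom ℚ))⁄Qb) Q d) < 1 := by
  have := mzgl_isElliptic W hΔ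
  exact mz2t_local_II_gen (W.map (Int.castRingHom ↥A)) _ (mzgl_map_subtype W A) _
    (mzgl_map_residue W A) hAd Q hQord hII

/-- multiples of a torsion point in the zero component are in the zero component -/
theorem mz2t_inZero_nsmul {n : ℕ} (W : WeierstrassCurve ℤ)
    (hΔ : W.Δ ≠ 0) (Q : ((W.map (Int.castRingHom ℚ))⁄Qb).toAffine.Point)
    (hQ : n • Q = 0) (A : ValuationSubring Qb) (hAn : A.valuation (n : Qb) = 1)
    (hI : W.InZeroComponentAt A Q) (m : ℕ) : W.InZeroComponentAt A (m • Q) := by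
  have := mzgl_isElliptic W hΔ
  exact mz2t_tor_nsmul_gen (W.map (Int.castRingHom ↥A)) _ (mzgl_map_subtype W A) _
    (mzgl_map_residue W A) hAn Q hQ hI m

end Rat

end Fermat.Agent.Mazur2
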