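/-
ISOG (track S12), package (P2-rest)/(Rat) (helper1): **rationality of Galois-stable products**.

For a Weierstrass curve `Wq` over `ℚ` and a point `Q` of order `d` over `ℚ̄` generating a
`G_ℚ`-stable (cyclic) subgroup, the product `∏_{0 < m < d} ψ₂(m Q)` (`mzgaPi`) is fixed by `G_ℚ`,
hence rational: `σ` permutes the nonzero elements of `⟨Q⟩`.
-/
import Fermat.Agent.Lib.Mazur.G.Main.Descent

set_option autoImplicit false
set_option linter.unusedSectionVars false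
set_option linter.style.haveILetI false

open WeierstrassCurve WeierstrassCurve.Affine

namespace Fermat.Agent.Mazur2

open Fermat.Agent.Mazur

local notation "Qb" => AlgebraicClosure ℚ
local notation "GQ" => (AlgebraicClosure ℚ ≃ₐ[ℚ] AlgebraicClosure ℚ)

section Perm

variable {G F : Type*} [AddGroup G] [CommMonoid F]

/-- multiplication by a unit `u` of `ℤ/d` permutes the nonzero multiples of a point of order `d` -/
theorem mz2t_prod_perm (f : G → F) {d : ℕ} {Q : G} (hQ : addOrderOf Q = d) {u : ℕ}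
    (hu : Nat.Coprime u d) :
    ∏ m ∈ Finset.Ico 1 d, f ((m * u) • Q) = ∏ m ∈ Finset.Ico 1 d, f (m • Q) := by
  rcases Nat.eq_zero_or_pos d with hd | hd
  · subst hd
    simp
  have hmem : ∀ m ∈ Finset.Ico 1 d, (m * u) % d ∈ Finset.Ico 1 d := by
    intro m hm
    obtain ⟨hm1, hm2⟩ := Finset.mem_Ico.mp hm
    refine Finset.mem_Ico.mpr ⟨?_, Nat.mod_lt _ hd⟩
    rw [Nat.one_le_iff_ne_zero]
    intro h0
    have h1 : d ∣ m * u := Nat.dvd_of_mod_eq_zero h0
    have h2 : d ∣ m := (Nat.Coprime.dvd_mul_right hu.symm).mp h1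
    exact absurd (Nat.le_of_dvd (by omega) h2) (by omega)
  have hinj : Set.InjOn (fun m => (m * u) % d) (Finset.Ico 1 d : Finset ℕ) := by
    intro m₁ hm₁ m₂ hm₂ h
    have hm₁' := Finset.mem_Ico.mp (Finset.mem_coe.mp hm₁)
    have hm₂' := Finset.mem_Ico.mp (Finset.mem_coe.mp hm₂)
    have h1 : m₁ * u ≡ m₂ * u [MOD d] := h
    have h2 : m₁ ≡ m₂ [MOD d] := Nat.ModEq.cancel_right_of_coprime hu.symm h1
    exact Nat.ModEq.eq_of_lt_of_lt h2 hm₁'.2 hm₂'.2
  refine Finset.prod_nbij (fun m => (m * u) % d) hmem hinj ?_ ?_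
  · exact Finset.surjOn_of_injOn_of_card_le _ hmem hinj le_rfl
  · intro m _
    show f ((m * u) • Q) = f (((m * u) % d) • Q)
    rw [← hQ, mod_addOrderOf_nsmul]

end Perm

section Galois

variable (Wq : WeierstrassCurve ℚ)

/-- `ψ₂` is Galois-equivariant -/
theorem mz2t_psi2_smul (σ : GQ) (P : (Wq⁄Qb).toAffine.Point) :
    mzgaPsi2 (Wq⁄Qb) (σ • P) = σ (mzgaPsi2 (Wq⁄Qb) P) := by
  rcases P with _ | ⟨x, y, h⟩
  · exact (map_one σ).symm
  · rw [Point.algEquiv_smul_def, Point.map_some]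
    show 2 * σ y + (Wq⁄Qb).a₁ * σ x + (Wq⁄Qb).a₃ = σ (2 * y + (Wq⁄Qb).a₁ * x + (Wq⁄Qb).a₃)
    have h1 : σ (Wq⁄Qb).a₁ = (Wq⁄Qb).a₁ := σ.commutes _
    have h3 : σ (Wq⁄Qb).a₃ = (Wq⁄Qb).a₃ := σ.commutes _
    rw [map_add, map_add, map_mul, map_mul, h1, h3, map_ofNat]

/-- the Galois action commutes with multiplication by `n` -/
theorem mz2t_smul_nsmul (σ : GQ) (n : ℕ) (Q : (Wq⁄Qb).toAffine.Point) :
    σ • (n • Q) = n • (σ • Q) := by
  have := map_nsmul (DistribSMul.toAddMonoidHom (Wq⁄Qb).toAffine.Point σ) n Q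
  simpa only [DistribSMul.toAddMonoidHom_apply] using this

/-- **Galois-invariance of the product over a stable cyclic subgroup** -/
theorem mz2t_pi_fixed {d : ℕ} (Q : (Wq⁄Qb).toAffine.Point) (hQ : addOrderOf Q = d)
    (hstab : ∀ σ : GQ, σ • Q ∈ AddSubgroup.zmultiples Q) (σ : GQ) :
    σ (mzgaPi (Wq⁄Qb) Q d) = mzgaPi (Wq⁄Qb) Q d := by
  rcases Nat.eq_zero_or_pos d with hd | hd
  · subst hd
    simp [mzgaPi]
  -- `σ Q = u Q` with `u` prime to `d`
  obtain ⟨k, hk⟩ := AddSubgroup.mem_zmultiples_iff.mp (hstab σ)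
  have hdQ : d • Q = 0 := by rw [← hQ]; exact addOrderOf_nsmul_eq_zero Q
  set u : ℕ := (k % (d : ℤ)).toNat with hu
  have hu' : (u : ℤ) = k % (d : ℤ) :=
    Int.toNat_of_nonneg (Int.emod_nonneg _ (by exact_mod_cast hd.ne'))
  have huQ : u • Q = σ • Q := by
    rw [← hk, ← natCast_zsmul, hu']
    conv_rhs => rw [← Int.emod_add_mul_ediv k (d : ℤ)]
    rw [add_zsmul, mul_comm, mul_zsmul, natCast_zsmul, hdQ, zsmul_zero, add_zero]
  have hordσ : addOrderOf (σ • Q) = d := by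
    rw [← hQ]
    exact addOrderOf_injective (DistribSMul.toAddMonoidHom _ σ)
      (MulAction.injective σ) Q
  have hcop : Nat.Coprime u d := by
    have hfin : IsOfFinAddOrder Q := addOrderOf_pos_iff.mp (by rw [hQ]; exact hd)
    have h1 : addOrderOf (u • Q) = _ := IsOfFinAddOrder.addOrderOf_nsmul Q u hfin
    rw [huQ, hordσ, hQ] at h1
    have h2 : d.gcd u = 1 := by
      by_contra hne
      have hg : 0 < d.gcd u := Nat.gcd_pos_of_pos_left _ hd
      have h3 : 1 < d.gcd u := by omega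
      have h4 : d / d.gcd u < d := Nat.div_lt_self hd h3
      omega
    rw [Nat.coprime_comm]
    exact h2
  unfold mzgaPi
  rw [map_prod, ← mz2t_prod_perm (mzgaPsi2 (Wq⁄Qb)) hQ hcop]
  refine Finset.prod_congr rfl fun m _ => ?_
  rw [← mz2t_psi2_smul, mul_smul, huQ, mz2t_smul_nsmul]

/-- the product over a stable cyclic subgroup is rational -/
theorem mz2t_pi_rat {d : ℕ} (Q : (Wq⁄Qb).toAffine.Point) (hQ : addOrderOf Q = d)
    (hstab : ∀ σ : GQ, σ • Q ∈ AddSubgroup.zmultiples Q) :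
    ∃ r : ℚ, algebraMap ℚ Qb r = mzgaPi (Wq⁄Qb) Q d :=
  mzgm_exists_rat_of_fixed _ (mz2t_pi_fixed Wq Q hQ hstab)

/-- multiples of a generator of a stable cyclic subgroup generate stable subgroups -/
theorem mz2t_stab_nsmul (Q : (Wq⁄Qb).toAffine.Point)
    (hstab : ∀ σ : GQ, σ • Q ∈ AddSubgroup.zmultiples Q) (n : ℕ) (σ : GQ) :
    σ • (n • Q) ∈ AddSubgroup.zmultiples (n • Q) := by
  obtain ⟨k, hk⟩ := AddSubgroup.mem_zmultiples_iff.mp (hstab σ)
  refine AddSubgroup.mem_zmultiples_iff.mpr ⟨k, ?_⟩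
  rw [mz2t_smul_nsmul, ← hk, ← natCast_zsmul, ← natCast_zsmul, smul_comm]

end Galois

end Fermat.Agent.Mazur2
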