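/-
ISOG (track S12), package (P2-rest)/(Ind)+(Main) (helper1): **the tower version of `mzg_main`
combined with the dual abstract form of S15** = the statement (HM) of the abstract chain.

`mz2t_hm` : `W` a Weierstrass curve over `ℤ` with `Δ ≠ 0`, multiplicative at `2` and `3`,
`p ∉ {2,3,5,7,13}` a prime, `Q` a point of order `p^(k+1)` over `ℚ̄` generating a `G_ℚ`-stable
subgroup, `pQ` in the zero component at every place over a multiplicative prime `ℓ ≠ p`, `Q` in the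
zero component at all places over `2` and `3`.  Then `Q` is in the zero component at every place
over a multiplicative prime `ℓ ≠ p`.
-/
import Fermat.Agent.Lib.Mazur2.An.Glue
import Fermat.Agent.Lib.Mazur2.Tw.Dual
import Fermat.Agent.Lib.Mazur2.Tw.Rat
import Fermat.Agent.Lib.Mazur2.Tw.Loc
import Fermat.Agent.Lib.Mazur2.Tw.Level

set_option autoImplicit false
set_option linter.unusedSectionVars false
set_option linter.style.haveILetI false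

open WeierstrassCurve WeierstrassCurve.Affine

namespace Fermat.Agent.Mazur2

open ModularCurve Polynomial
open AlgebraicCurve Fermat.Agent.Curve Fermat.Agent.Curve.PlaceAux Fermat.Agent.Igusa
  Fermat.Agent.T1 Fermat.Agent.T2 Fermat.Agent.ET Fermat.Agent.Mazur

local notation "Qb" => AlgebraicClosure ℚ
local notation "GQ" => (AlgebraicClosure ℚ ≃ₐ[ℚ] AlgebraicClosure ℚ)

/-- orders of the generators of the subgroups of a cyclic group of order `p^(k+1)` -/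
theorem mz2t_order_sub {G : Type*} [AddGroup G] {p : ℕ} (hp : p.Prime) {k : ℕ} {Q : G}
    (hQ : addOrderOf Q = p ^ (k + 1)) {i : ℕ} (hi : i ≤ k + 1) :
    addOrderOf (p ^ (k + 1 - i) • Q) = p ^ i := by
  have h1 : p ^ (k + 1 - i) ∣ addOrderOf Q := by
    rw [hQ]
    exact pow_dvd_pow p (Nat.sub_le _ _)
  rw [addOrderOf_nsmul_of_dvd (pow_ne_zero _ hp.ne_zero) h1, hQ,
    Nat.pow_div (Nat.sub_le _ _) hp.pos]
  congr 1
  omega

/-- a natural power of `p` is a unit where `p` is -/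
theorem mz2t_val_pow {L : Type*} [Field L] (A : ValuationSubring L) {p : ℕ}
    (hAp : A.valuation (p : L) = 1) (i : ℕ) : A.valuation ((p ^ i : ℕ) : L) = 1 := by
  rw [Nat.cast_pow, map_pow, hAp, one_pow]

section Tower

variable {p : ℕ} [hpF : Fact p.Prime] (W : WeierstrassCurve ℤ)

local notation "𝔼" => ((W.map (Int.castRingHom ℚ))⁄Qb)

theorem mz2t_Delta_eq : (𝔼).Δ = ((W.Δ : ℤ) : Qb) := by
  change ((W.map (Int.castRingHom ℚ)).map (algebraMap ℚ Qb)).Δ = _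
  rw [WeierstrassCurve.map_Δ, WeierstrassCurve.map_Δ]
  simp

theorem mz2t_c4_eq : (𝔼).c₄ = ((W.c₄ : ℤ) : Qb) := by
  change ((W.map (Int.castRingHom ℚ)).map (algebraMap ℚ Qb)).c₄ = _
  rw [WeierstrassCurve.map_c₄, WeierstrassCurve.map_c₄]
  simp

theorem mz2t_Delta_fixed (σ : GQ) : σ (𝔼).Δ = (𝔼).Δ := by
  rw [mz2t_Delta_eq]
  exact map_intCast σ _

theorem mz2t_j_rel [(𝔼).IsElliptic] : (𝔼).j * ((W.Δ : ℤ) : Qb) = ((W.c₄ : ℤ) : Qb) ^ 3 := by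
  rw [← mz2t_Delta_eq, ← mz2t_c4_eq, WeierstrassCurve.j, ← WeierstrassCurve.coe_Δ']
  rw [mul_comm, ← mul_assoc, Units.mul_inv, one_mul]

theorem mz2t_j_fixed [(𝔼).IsElliptic] (hΔ : W.Δ ≠ 0) (σ : GQ) : σ (𝔼).j = (𝔼).j := by
  have hΔQb : ((W.Δ : ℤ) : Qb) ≠ 0 := by exact_mod_cast hΔ
  have h1 : (𝔼).j = ((W.c₄ : ℤ) : Qb) ^ 3 / ((W.Δ : ℤ) : Qb) := by
    rw [eq_div_iff hΔQb]
    exact mz2t_j_rel W
  rw [h1, map_div₀, map_pow, map_intCast, map_intCast]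

/-- the valuation of `j` at a multiplicative place -/
theorem mz2t_val_j0 [(𝔼).IsElliptic] (hΔ : W.Δ ≠ 0) {ℓ : ℕ} (hℓ : ℓ.Prime)
    (hℓΔ : (ℓ : ℤ) ∣ W.Δ) (hℓc : ¬ (ℓ : ℤ) ∣ W.c₄) (A : ValuationSubring Qb)
    (hA : A.LiesOverPrime ℓ) :
    A.valuation (𝔼).j * A.valuation ((W.Δ : ℤ) : Qb) = 1 ∧ 1 < A.valuation (𝔼).j := by
  have hvΔ : A.valuation ((W.Δ : ℤ) : Qb) < 1 := mzgm_val_int_of_dvd A hA hℓΔ
  have hvc : A.valuation ((W.c₄ : ℤ) : Qb) = 1 := mzgm_val_int_of_not_dvd A hA hℓ hℓc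
  have hvj : A.valuation (𝔼).j * A.valuation ((W.Δ : ℤ) : Qb) = 1 := by
    rw [← map_mul, mz2t_j_rel W, map_pow, hvc, one_pow]
  refine ⟨hvj, ?_⟩
  by_contra hle
  rw [not_lt] at hle
  have : A.valuation (𝔼).j * A.valuation ((W.Δ : ℤ) : Qb) < 1 :=
    lt_of_le_of_lt (mul_le_of_le_one_left zero_le hle) hvΔ
  rw [hvj] at this
  exact lt_irrefl _ this

variable (k : ℕ) (Q : ((W.map (Int.castRingHom ℚ))⁄Qb).toAffine.Point)

/-- `D_i · Π_i⁴ = Δ^(p^i - 1)` -/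
theorem mz2t_D_mul {i : ℕ} (h0 : mz2aD p 𝔼 Q k i ≠ 0) :
    mz2aD p 𝔼 Q k i * mzgaPi 𝔼 (p ^ (k + 1 - i) • Q) (p ^ i) ^ 4 = (𝔼).Δ ^ (p ^ i - 1) := by
  have hPi : mzgaPi 𝔼 (p ^ (k + 1 - i) • Q) (p ^ i) ^ 4 ≠ 0 := by
    intro h
    apply h0
    rw [mz2aD, h, div_zero]
  rw [mz2aD, div_mul_cancel₀ _ hPi]

/-- the `D_i` are rational -/
theorem mz2t_D_fixed (hQord : addOrderOf Q = p ^ (k + 1))
    (hQstab : ∀ σ : GQ, σ • Q ∈ AddSubgroup.zmultiples Q) {i : ℕ} (hi : i ≤ k + 1) (σ : GQ) :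
    σ (mz2aD p 𝔼 Q k i) = mz2aD p 𝔼 Q k i := by
  have hp : p.Prime := hpF.out
  rw [mz2aD, map_div₀, map_pow, map_pow, mz2t_Delta_fixed,
    mz2t_pi_fixed (W.map (Int.castRingHom ℚ)) (p ^ (k + 1 - i) • Q) (mz2t_order_sub hp hQord hi)
      (mz2t_stab_nsmul (W.map (Int.castRingHom ℚ)) Q hQstab _) σ]

/-- the generators of the lower levels are in the zero component when `pQ` is -/
theorem mz2t_tor_sub (hΔ : W.Δ ≠ 0) (hQord : addOrderOf Q = p ^ (k + 1))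
    (A : ValuationSubring Qb) (hAp : A.valuation (p : Qb) = 1)
    (hI : W.InZeroComponentAt A (p • Q)) {i : ℕ} (hi : i ≤ k) :
    W.InZeroComponentAt A (p ^ (k + 1 - i) • Q) := by
  have h1 : p ^ (k + 1 - i) • Q = p ^ (k - i) • (p • Q) := by
    rw [← mul_smul, ← pow_succ]
    congr 2
    omega
  rw [h1]
  refine mz2t_inZero_nsmul W hΔ (p • Q) (n := p ^ (k + 1)) ?_ A (mz2t_val_pow A hAp _) hI _
  rw [smul_comm, ← hQord, addOrderOf_nsmul_eq_zero, smul_zero]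

/-- all the generators are in the zero component when `Q` is -/
theorem mz2t_tor_all (hΔ : W.Δ ≠ 0) (hQord : addOrderOf Q = p ^ (k + 1))
    (A : ValuationSubring Qb) (hAp : A.valuation (p : Qb) = 1)
    (hI : W.InZeroComponentAt A Q) (i : ℕ) :
    W.InZeroComponentAt A (p ^ (k + 1 - i) • Q) :=
  mz2t_inZero_nsmul W hΔ Q (n := p ^ (k + 1))
    (by rw [← hQord]; exact addOrderOf_nsmul_eq_zero Q) A (mz2t_val_pow A hAp _) hI _

/-- **one level of the tower**: the valuation shapes of `(J_i, J_{i+1})` at a multiplicative place,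
according to whether the generator of `N_{i+1}` lies in the zero component or not -/
theorem mz2t_level [(𝔼).IsElliptic] (hp2 : p ≠ 2) (hΔ : W.Δ ≠ 0)
    (hQord : addOrderOf Q = p ^ (k + 1)) {i : ℕ} (hi : i ≤ k)
    (hDi : mz2aD p 𝔼 Q k i ≠ 0) (hDi1 : mz2aD p 𝔼 Q k (i + 1) ≠ 0)
    (x : Place Qb ↥(modularFunctionFieldBar p)) (j₁ j₂ : Qb)
    (hj : OrdGE x (tbJ p - algebraMap Qb ↥(modularFunctionFieldBar p) j₁) 1)
    (hU : OrdGE x (mzgU p p (dvd_refl p) - algebraMap Qb ↥(modularFunctionFieldBar p)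
      (mz2aD p 𝔼 Q k (i + 1) / mz2aD p 𝔼 Q k i)) 1)
    (hj₂ : OrdGE x (t2cpYq p p (dvd_refl p) -
      algebraMap Qb ↥(modularFunctionFieldBar p) j₂) 1)
    {ℓ : ℕ} (hℓ : ℓ.Prime) (hℓp : ℓ ≠ p) (hℓΔ : (ℓ : ℤ) ∣ W.Δ) (hℓc : ¬ (ℓ : ℤ) ∣ W.c₄)
    (A : ValuationSubring Qb) (hA : A.LiesOverPrime ℓ)
    (hv : A.valuation j₁ = A.valuation (𝔼).j ^ (p ^ i))
    (hI : W.InZeroComponentAt A (p ^ (k + 1 - i) • Q)) :
    1 < A.valuation j₁ ∧
    (W.InZeroComponentAt A (p ^ (k + 1 - (i + 1)) • Q) →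
      A.valuation j₂ = A.valuation j₁ ^ p ∧
        evalEval j₁ (mz2aD p 𝔼 Q k (i + 1) / mz2aD p 𝔼 Q k i)
          (derivative (modPsiK p hpF.out Qb)) ≠ 0) ∧
    (¬ W.InZeroComponentAt A (p ^ (k + 1 - (i + 1)) • Q) →
      A.valuation j₁ = A.valuation j₂ ^ p) := by
  have hp : p.Prime := hpF.out
  have hAp : A.valuation (p : Qb) = 1 := mzgl_val_prime_of_liesOver A hA hℓ hp hℓp
  obtain ⟨hab, h1⟩ := mz2t_val_j0 W hΔ hℓ hℓΔ hℓc A hA
  have h1i : 1 < A.valuation j₁ := by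
    rw [hv]
    exact one_lt_pow₀ h1 (pow_ne_zero _ hp.ne_zero)
  have hodd : ∀ m : ℕ, Odd (p ^ m) := fun m => (hp.odd_of_ne_two hp2).pow
  have hπ : A.valuation (mzgaPi 𝔼 (p ^ (k + 1 - i) • Q) (p ^ i)) = 1 :=
    mz2t_local_I (hodd i) W hΔ _ (mz2t_order_sub hp hQord (by omega)) A
      (mz2t_val_pow A hAp i) hI
  have hd := congrArg A.valuation (mz2t_D_mul W k Q hDi)
  rw [map_mul, map_pow, map_pow, mz2t_Delta_eq] at hd
  have hd' := congrArg A.valuation (mz2t_D_mul W k Q hDi1)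
  have he : p ^ (i + 1) - 1 = p ^ i * p - 1 := by rw [pow_succ]
  rw [map_mul, map_pow, map_pow, mz2t_Delta_eq, he] at hd'
  have hu : A.valuation (mz2aD p 𝔼 Q k (i + 1) / mz2aD p 𝔼 Q k i) *
      A.valuation (mz2aD p 𝔼 Q k i) = A.valuation (mz2aD p 𝔼 Q k (i + 1)) := by
    rw [← map_mul, div_mul_cancel₀ _ hDi]
  have key := mz2t_val_key (pow_pos hp.pos i) hp.pos hab hd hd' hu hπ
  rw [← hv] at key
  obtain ⟨hs1, hs2⟩ := mz2t_shape hp x j₁ _ j₂ hj hU hj₂ A hAp h1i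
  refine ⟨h1i, fun hI' => ?_, fun hI' => ?_⟩
  · have hπ' : A.valuation (mzgaPi 𝔼 (p ^ (k + 1 - (i + 1)) • Q) (p ^ (i + 1))) = 1 :=
      mz2t_local_I (hodd (i + 1)) W hΔ _ (mz2t_order_sub hp hQord (by omega)) A
        (mz2t_val_pow A hAp (i + 1)) hI'
    rw [hπ', one_pow, mul_one] at key
    exact hs1 key
  · have hπ' : A.valuation (mzgaPi 𝔼 (p ^ (k + 1 - (i + 1)) • Q) (p ^ (i + 1))) < 1 :=
      mz2t_local_II W hΔ _ (mz2t_order_sub hp hQord (by omega)) A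
        (mz2t_val_pow A hAp (i + 1)) hI'
    apply hs2
    intro h
    rw [h, one_mul] at key
    have h4 := (pow_eq_one_iff_of_nonneg zero_le (by norm_num)).mp key
    rw [h4] at hπ'
    exact lt_irrefl _ hπ'

/-- **(HM) Mazur for the tower**: a `G_ℚ`-stable cyclic subgroup `⟨Q⟩` of order `p^(k+1)` with
`⟨pQ⟩` toric at every multiplicative `ℓ ≠ p` and `⟨Q⟩` toric at `2` and `3` is toric at every
multiplicative `ℓ ≠ p`. -/
theorem mz2t_hm (hp' : p ∉ ({2, 3, 5, 7, 13} : Finset ℕ)) (hΔ : W.Δ ≠ 0)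
    (hQord : addOrderOf Q = p ^ (k + 1))
    (hQstab : ∀ σ : GQ, σ • Q ∈ AddSubgroup.zmultiples Q)
    (h2 : (2 : ℤ) ∣ W.Δ ∧ ¬ (2 : ℤ) ∣ W.c₄) (h3 : (3 : ℤ) ∣ W.Δ ∧ ¬ (3 : ℤ) ∣ W.c₄)
    (hQ2 : ∀ A : ValuationSubring Qb, A.LiesOverPrime 2 → W.InZeroComponentAt A Q)
    (hQ3 : ∀ A : ValuationSubring Qb, A.LiesOverPrime 3 → W.InZeroComponentAt A Q)
    (hprev : ∀ ℓ : ℕ, ℓ.Prime → ℓ ≠ p → (ℓ : ℤ) ∣ W.Δ → ¬ (ℓ : ℤ) ∣ W.c₄ →
      ∀ A : ValuationSubring Qb, A.LiesOverPrime ℓ → W.InZeroComponentAt A (p • Q)) :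
    ∀ ℓ : ℕ, ℓ.Prime → ℓ ≠ p → (ℓ : ℤ) ∣ W.Δ → ¬ (ℓ : ℤ) ∣ W.c₄ →
      ∀ A : ValuationSubring Qb, A.LiesOverPrime ℓ → W.InZeroComponentAt A Q := by
  intro ℓ hℓ hℓp hℓΔ hℓc A hA
  by_contra hnot
  have hp : p.Prime := hpF.out
  have hp2 : p ≠ 2 := by
    rintro rfl
    exact hp' (by decide)
  have hp3 : p ≠ 3 := by
    rintro rfl
    exact hp' (by decide)
  haveI := mzgl_isElliptic W hΔ
  obtain ⟨J, x, hJ0, hD0, hx⟩ := mz2a_tower_chain hp hp2 𝔼 k Q hQord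
  -- the top generator
  have hQtop : p ^ (k + 1 - (k + 1)) • Q = Q := by
    rw [Nat.sub_self, pow_zero, one_smul]
  -- rationality of the `U_i`
  have hUfix : ∀ i ≤ k, ∀ σ : GQ, σ (mz2aD p 𝔼 Q k (i + 1) / mz2aD p 𝔼 Q k i) =
      mz2aD p 𝔼 Q k (i + 1) / mz2aD p 𝔼 Q k i := by
    intro i hi σ
    rw [map_div₀, mz2t_D_fixed W k Q hQord hQstab (by omega) σ,
      mz2t_D_fixed W k Q hQord hQstab (by omega) σ]
  -- places over `2` and `3`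
  obtain ⟨A₂, hA₂⟩ := Fermat.Agent.Lib.Helper6.exists_valuationSubring_liesOverPrime Qb
    Nat.prime_two
  obtain ⟨A₃, hA₃⟩ := Fermat.Agent.Lib.Helper6.exists_valuationSubring_liesOverPrime Qb
    Nat.prime_three
  have h2p : (2 : ℕ) ≠ p := fun h => hp2 h.symm
  have h3p : (3 : ℕ) ≠ p := fun h => hp3 h.symm
  have hA₂p : A₂.valuation (p : Qb) = 1 :=
    mzgl_val_prime_of_liesOver A₂ hA₂ Nat.prime_two hp h2p
  have hA₃p : A₃.valuation (p : Qb) = 1 :=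
    mzgl_val_prime_of_liesOver A₃ hA₃ Nat.prime_three hp h3p
  have hAp : A.valuation (p : Qb) = 1 := mzgl_val_prime_of_liesOver A hA hℓ hp hℓp
  -- the induction: rationality and valuations of the `J_i`, `i ≤ k`
  have hR : ∀ i ≤ k, (∀ σ : GQ, σ (J i) = J i) ∧
      ∀ ℓ' : ℕ, ℓ'.Prime → ℓ' ≠ p → (ℓ' : ℤ) ∣ W.Δ → ¬ (ℓ' : ℤ) ∣ W.c₄ →
        ∀ A' : ValuationSubring Qb, A'.LiesOverPrime ℓ' →
          A'.valuation (J i) = A'.valuation (𝔼).j ^ (p ^ i) := by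
    intro i
    induction i with
    | zero =>
      intro _
      refine ⟨fun σ => ?_, fun ℓ' _ _ _ _ A' _ => ?_⟩
      · rw [hJ0]
        exact mz2t_j_fixed W hΔ σ
      · rw [hJ0, pow_zero, pow_one]
    | succ i ih =>
      intro hi
      obtain ⟨hJfix, hJval⟩ := ih (by omega)
      obtain ⟨hxj, hxU, hxY⟩ := hx i (by omega)
      -- the level-`i` place is Galois-fixed (simple point at `2`)
      have hlev2 := mz2t_level W k Q hp2 hΔ hQord (i := i) (by omega) (hD0 i (by omega))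
        (hD0 (i + 1) (by omega)) (x i) (J i) (J (i + 1)) hxj hxU hxY Nat.prime_two h2p
        (by exact_mod_cast h2.1) (by exact_mod_cast h2.2) A₂ hA₂
        (hJval 2 Nat.prime_two h2p (by exact_mod_cast h2.1) (by exact_mod_cast h2.2) A₂ hA₂)
        (mz2t_tor_all W k Q hΔ hQord A₂ hA₂p (hQ2 A₂ hA₂) i)
      have hsimple := (hlev2.2.1 (mz2t_tor_all W k Q hΔ hQord A₂ hA₂p (hQ2 A₂ hA₂) (i + 1))).2
      have hxfix : ∀ σ : GQ, arithmeticGalois (modularFunctionFieldFull p) σ • x i = x i :=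
        mz2t_fixed hp (x i) (J i) _ hxj hxU hJfix (hUfix i (by omega)) hsimple
      refine ⟨fun σ => mz2t_value_fixed (x i) σ (hxfix σ) _ (mz2t_smul_Y σ) _ hxY,
        fun ℓ' hℓ' hℓ'p hℓ'Δ hℓ'c A' hA' => ?_⟩
      have hA'p : A'.valuation (p : Qb) = 1 := mzgl_val_prime_of_liesOver A' hA' hℓ' hp hℓ'p
      have hprev' := hprev ℓ' hℓ' hℓ'p hℓ'Δ hℓ'c A' hA'
      have hlev := mz2t_level W k Q hp2 hΔ hQord (i := i) (by omega) (hD0 i (by omega))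
        (hD0 (i + 1) (by omega)) (x i) (J i) (J (i + 1)) hxj hxU hxY hℓ' hℓ'p hℓ'Δ hℓ'c A' hA'
        (hJval ℓ' hℓ' hℓ'p hℓ'Δ hℓ'c A' hA')
        (mz2t_tor_sub W k Q hΔ hQord A' hA'p hprev' (by omega))
      rw [(hlev.2.1 (mz2t_tor_sub W k Q hΔ hQord A' hA'p hprev' hi)).1,
        hJval ℓ' hℓ' hℓ'p hℓ'Δ hℓ'c A' hA', ← pow_mul, ← pow_succ]
  -- the top level
  obtain ⟨hJfix, hJval⟩ := hR k le_rfl
  obtain ⟨hxj, hxU, hxY⟩ := hx k le_rfl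
  have htop : ∀ ℓ' : ℕ, ℓ'.Prime → ℓ' ≠ p → (ℓ' : ℤ) ∣ W.Δ → ¬ (ℓ' : ℤ) ∣ W.c₄ →
      ∀ A' : ValuationSubring Qb, A'.LiesOverPrime ℓ' →
        1 < A'.valuation (J k) ∧
        (W.InZeroComponentAt A' Q →
          A'.valuation (J (k + 1)) = A'.valuation (J k) ^ p ∧
            evalEval (J k) (mz2aD p 𝔼 Q k (k + 1) / mz2aD p 𝔼 Q k k)
              (derivative (modPsiK p hpF.out Qb)) ≠ 0) ∧
        (¬ W.InZeroComponentAt A' Q → A'.valuation (J k) = A'.valuation (J (k + 1)) ^ p) := by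
    intro ℓ' hℓ' hℓ'p hℓ'Δ hℓ'c A' hA'
    have hA'p : A'.valuation (p : Qb) = 1 := mzgl_val_prime_of_liesOver A' hA' hℓ' hp hℓ'p
    have hlev := mz2t_level W k Q hp2 hΔ hQord (i := k) le_rfl (hD0 k (by omega))
      (hD0 (k + 1) le_rfl) (x k) (J k) (J (k + 1)) hxj hxU hxY hℓ' hℓ'p hℓ'Δ hℓ'c A' hA'
      (hJval ℓ' hℓ' hℓ'p hℓ'Δ hℓ'c A' hA')
      (mz2t_tor_sub W k Q hΔ hQord A' hA'p (hprev ℓ' hℓ' hℓ'p hℓ'Δ hℓ'c A' hA') le_rfl)
    rw [hQtop] at hlev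
    exact hlev
  have ht2 := htop 2 Nat.prime_two h2p (by exact_mod_cast h2.1) (by exact_mod_cast h2.2) A₂ hA₂
  have ht3 := htop 3 Nat.prime_three h3p (by exact_mod_cast h3.1) (by exact_mod_cast h3.2) A₃ hA₃
  have htℓ := htop ℓ hℓ hℓp hℓΔ hℓc A hA
  have hxfix : ∀ σ : GQ, arithmeticGalois (modularFunctionFieldFull p) σ • x k = x k :=
    mz2t_fixed hp (x k) (J k) _ hxj hxU hJfix (hUfix k le_rfl) (ht2.2.1 (hQ2 A₂ hA₂)).2
  have hℓ2 : ℓ ≠ 2 := by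
    rintro rfl
    exact hnot (hQ2 A hA)
  exact mz2t_abstract_dual_final hp' (x k) hxfix (J k) (J (k + 1)) hxj hxY
    ⟨A₂, hA₂, ht2.1, (ht2.2.1 (hQ2 A₂ hA₂)).1⟩ ⟨A₃, hA₃, ht3.1, (ht3.2.1 (hQ3 A₃ hA₃)).1⟩
    hℓ hℓp hℓ2 A hA htℓ.1 (htℓ.2.2 hnot)

end Tower

end Fermat.Agent.Mazur2
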