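/-
ISOG (track S12), package (P2-rest) (helper1): **good places and the literal `mazur` field**.

* `mz2t_inZero_of_good` : at a place over a prime `ℓ ∤ Δ` every point is in the zero component
  (`WeierstrassCurve.InZeroComponentAt`);
* `mz2t_mazur` : `mz2t_hm` in the literal shape of the field `mazur` of `Mz2cInput`
  (helper5's abstract chain), for a semistable integral model `W` (`ℓ ∣ Δ → ℓ ∤ c₄`) with
  `2 ∣ Δ` and `3 ∣ Δ`, with `T0 A := {P | W.InZeroComponentAt A P}`.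
-/
import Fermat.Agent.Lib.Mazur2.Tw.Main

set_option autoImplicit false
set_option linter.unusedSectionVars false
set_option linter.style.haveILetI false

open WeierstrassCurve WeierstrassCurve.Affine
open Fermat.Agent.ET

namespace Fermat.Agent.Mazur2

open Fermat.Agent.Mazur

local notation "Qb" => AlgebraicClosure ℚ
local notation "GQ" => (AlgebraicClosure ℚ ≃ₐ[ℚ] AlgebraicClosure ℚ)

section General

variable {K : Type*} [Field K] [DecidableEq K] {A : ValuationSubring K}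
  (W : WeierstrassCurve ↥A)

/-- good reduction: every point is in the zero component -/
theorem mz2t_tor_of_good_gen (hΔ : A.valuation ((W.Δ : ↥A) : K) = 1)
    (WK : WeierstrassCurve K) (hK : W.map A.subtype = WK)
    (Wk : WeierstrassCurve (IsLocalRing.ResidueField ↥A))
    (hk : W.map (IsLocalRing.residue ↥A) = Wk) (Q : WK.toAffine.Point) :
    Mz2tTor WK Wk Q := by
  subst hK hk
  rcases Q with _ | ⟨x, y, h⟩
  · exact Or.inl rfl
  refine Or.inr ⟨x, y, h, rfl, ?_⟩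
  by_cases hx : x ∈ A
  · right
    obtain ⟨ha₁, ha₂, ha₃, ha₄, ha₆⟩ := etg_map_a_mem A W
    have hy : y ∈ A := etg_y_mem ha₁ ha₂ ha₃ ha₄ ha₆ h.1 hx
    refine ⟨hx, hy, ?_⟩
    have E : W.toAffine.Equation (⟨x, hx⟩ : ↥A) ⟨y, hy⟩ := mzgl_equation_of_map W h.1
    have hΔk : (W.map (IsLocalRing.residue ↥A)).Δ ≠ 0 := by
      rw [WeierstrassCurve.map_Δ]
      exact (mzgl_residue_ne_zero_iff _).mpr hΔ
    exact (equation_iff_nonsingular_of_Δ_ne_zero hΔk).mp (E.map _)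
  · exact Or.inl hx

end General

section Rat

/-- **good places**: at a place over `ℓ ∤ Δ` every point is in the zero component -/
theorem mz2t_inZero_of_good (W : WeierstrassCurve ℤ) {ℓ : ℕ} (hℓ : ℓ.Prime)
    (hℓΔ : ¬ (ℓ : ℤ) ∣ W.Δ) (A : ValuationSubring Qb) (hA : A.LiesOverPrime ℓ)
    (Q : ((W.map (Int.castRingHom ℚ))⁄Qb).toAffine.Point) : W.InZeroComponentAt A Q := by
  refine mz2t_tor_of_good_gen (W.map (Int.castRingHom ↥A)) ?_ _ (mzgl_map_subtype W A) _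
    (mzgl_map_residue W A) Q
  rw [WeierstrassCurve.map_Δ]
  have := mzgm_val_int_of_not_dvd A hA hℓ hℓΔ
  simpa using this

end Rat

section Mazur

variable {p : ℕ} [hpF : Fact p.Prime]

/-- **the `mazur` field of the abstract chain** (`Mz2cInput`, `Lib/Mazur2/Chain/Defs.lean`) for a
semistable integral model `W` with `2 ∣ Δ`, `3 ∣ Δ`, and `T0 A` = the points in the zero component
at `A`. -/
theorem mz2t_mazur (hp' : p ∉ ({2, 3, 5, 7, 13} : Finset ℕ)) (W : WeierstrassCurve ℤ)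
    (hΔ : W.Δ ≠ 0) (hss : ∀ ℓ : ℕ, ℓ.Prime → (ℓ : ℤ) ∣ W.Δ → ¬ (ℓ : ℤ) ∣ W.c₄)
    (h2 : (2 : ℤ) ∣ W.Δ) (h3 : (3 : ℤ) ∣ W.Δ)
    (T0 : ValuationSubring Qb → AddSubgroup ((W.map (Int.castRingHom ℚ))⁄Qb).toAffine.Point)
    (hT0 : ∀ (A : ValuationSubring Qb) (Q : ((W.map (Int.castRingHom ℚ))⁄Qb).toAffine.Point),
      Q ∈ T0 A ↔ W.InZeroComponentAt A Q)
    (k : ℕ) (g : ((W.map (Int.castRingHom ℚ))⁄Qb).toAffine.Point)
    (hord : addOrderOf g = p ^ (k + 1))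
    (hstab : ∀ σ : GQ, σ • g ∈ AddSubgroup.zmultiples g)
    (hprev : ∀ ℓ : ℕ, ℓ.Prime → ℓ ≠ p → ∀ A : ValuationSubring Qb, A.LiesOverPrime ℓ →
      p • g ∈ T0 A)
    (h23 : ∀ r : ℕ, r = 2 ∨ r = 3 → ∀ A : ValuationSubring Qb, A.LiesOverPrime r → g ∈ T0 A) :
    ∀ ℓ : ℕ, ℓ.Prime → ℓ ≠ p → ∀ A : ValuationSubring Qb, A.LiesOverPrime ℓ → g ∈ T0 A := by
  intro ℓ hℓ hℓp A hA
  rw [hT0]
  by_cases hd : (ℓ : ℤ) ∣ W.Δ
  · refine mz2t_hm W k g hp' hΔ hord hstab ⟨h2, hss 2 Nat.prime_two (by exact_mod_cast h2)⟩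
      ⟨h3, hss 3 Nat.prime_three (by exact_mod_cast h3)⟩
      (fun A' hA' => (hT0 A' g).mp (h23 2 (Or.inl rfl) A' hA'))
      (fun A' hA' => (hT0 A' g).mp (h23 3 (Or.inr rfl) A' hA'))
      (fun ℓ' hℓ' hℓ'p _ _ A' hA' => (hT0 A' _).mp (hprev ℓ' hℓ' hℓ'p A' hA'))
      ℓ hℓ hℓp hd (hss ℓ hℓ hd) A hA
  · exact mz2t_inZero_of_good W hℓ hd A hA g

end Mazur

end Fermat.Agent.Mazur2
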