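/-
ISOG (track S12), package (P2-rest) (helper1): **the `mazur` field with a weak dictionary**.

`mz2t_mazur_weak` : the same as `mz2t_mazur` (`Tw/Good.lean`), but the dictionary
`Q ∈ T0 A ↔ W.InZeroComponentAt A Q` is only required for `p`-power torsion points `Q` and places
`A` over primes `ℓ ≠ p` (this is all that the proof uses: it is applied to `g` and `p • g`).
-/
import Fermat.Agent.Lib.Mazur2.Tw.Good

set_option autoImplicit false
set_option linter.unusedSectionVars false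
set_option linter.style.haveILetI false

open WeierstrassCurve WeierstrassCurve.Affine

namespace Fermat.Agent.Mazur2

local notation "Qb" => AlgebraicClosure ℚ
local notation "GQ" => (AlgebraicClosure ℚ ≃ₐ[ℚ] AlgebraicClosure ℚ)

variable {p : ℕ} [hpF : Fact p.Prime]

/-- **the `mazur` field of the abstract chain**, with the dictionary between `T0` and the zero
component only on `p`-power torsion and away from `p`. -/
theorem mz2t_mazur_weak (hp' : p ∉ ({2, 3, 5, 7, 13} : Finset ℕ)) (W : WeierstrassCurve ℤ)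
    (hΔ : W.Δ ≠ 0) (hss : ∀ ℓ : ℕ, ℓ.Prime → (ℓ : ℤ) ∣ W.Δ → ¬ (ℓ : ℤ) ∣ W.c₄)
    (h2 : (2 : ℤ) ∣ W.Δ) (h3 : (3 : ℤ) ∣ W.Δ)
    (T0 : ValuationSubring Qb → AddSubgroup ((W.map (Int.castRingHom ℚ))⁄Qb).toAffine.Point)
    (hT0 : ∀ ℓ : ℕ, ℓ.Prime → ℓ ≠ p → ∀ A : ValuationSubring Qb, A.LiesOverPrime ℓ →
      ∀ (Q : ((W.map (Int.castRingHom ℚ))⁄Qb).toAffine.Point) (n : ℕ), p ^ n • Q = 0 →
        (Q ∈ T0 A ↔ W.InZeroComponentAt A Q))
    (k : ℕ) (g : ((W.map (Int.castRingHom ℚ))⁄Qb).toAffine.Point)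
    (hord : addOrderOf g = p ^ (k + 1))
    (hstab : ∀ σ : GQ, σ • g ∈ AddSubgroup.zmultiples g)
    (hprev : ∀ ℓ : ℕ, ℓ.Prime → ℓ ≠ p → ∀ A : ValuationSubring Qb, A.LiesOverPrime ℓ →
      p • g ∈ T0 A)
    (h23 : ∀ r : ℕ, r = 2 ∨ r = 3 → ∀ A : ValuationSubring Qb, A.LiesOverPrime r → g ∈ T0 A) :
    ∀ ℓ : ℕ, ℓ.Prime → ℓ ≠ p → ∀ A : ValuationSubring Qb, A.LiesOverPrime ℓ → g ∈ T0 A := by
  have hp : p.Prime := hpF.out
  have hp2 : (2 : ℕ) ≠ p := by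
    rintro rfl
    exact hp' (by decide)
  have hp3 : (3 : ℕ) ≠ p := by
    rintro rfl
    exact hp' (by decide)
  have hg : p ^ (k + 1) • g = 0 := by
    rw [← hord]
    exact addOrderOf_nsmul_eq_zero g
  have hpg : p ^ (k + 1) • (p • g) = 0 := by
    rw [smul_comm, hg, nsmul_zero]
  intro ℓ hℓ hℓp A hA
  rw [hT0 ℓ hℓ hℓp A hA g (k + 1) hg]
  by_cases hd : (ℓ : ℤ) ∣ W.Δ
  · refine mz2t_hm W k g hp' hΔ hord hstab ⟨h2, hss 2 Nat.prime_two (by exact_mod_cast h2)⟩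
      ⟨h3, hss 3 Nat.prime_three (by exact_mod_cast h3)⟩
      (fun A' hA' => (hT0 2 Nat.prime_two hp2 A' hA' g (k + 1) hg).mp
        (h23 2 (Or.inl rfl) A' hA'))
      (fun A' hA' => (hT0 3 Nat.prime_three hp3 A' hA' g (k + 1) hg).mp
        (h23 3 (Or.inr rfl) A' hA'))
      (fun ℓ' hℓ' hℓ'p _ _ A' hA' => (hT0 ℓ' hℓ' hℓ'p A' hA' _ (k + 1) hpg).mp
        (hprev ℓ' hℓ' hℓ'p A' hA'))
      ℓ hℓ hℓp hd (hss ℓ hℓ hd) A hA
  · exact mz2t_inZero_of_good W hℓ hd A hA g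

end Fermat.Agent.Mazur2
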