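/-
ISOG (track S12), (P3) helper lemma (helper1): **(T2) in the language of the Prelude predicate**.

`mz2t_inert_fix` : for a Weierstrass curve `W` over `ℤ` with `Δ ≠ 0`, a place `A` of `ℚ̄` over a
prime `ℓ`, `σ` in the inertia group at `A` and a torsion point `Q` of order prime to `ℓ` in the zero
component at `A` (`WeierstrassCurve.InZeroComponentAt`): `σ • Q = Q`.
(`S58.s58l_inertia_fix` + the dictionary `InZeroComponentAt ⇒ S58lNs` on integral points.)
-/
import Fermat.Agent.Lib.S58.LocalFix
import Fermat.Agent.Lib.Mazur2.Tw.Loc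

set_option autoImplicit false
set_option linter.unusedSectionVars false
set_option linter.style.haveILetI false

open WeierstrassCurve WeierstrassCurve.Affine
open Fermat.Agent.ET

namespace Fermat.Agent.Mazur2

open Fermat.Agent.Mazur Fermat.Agent.S58 Fermat.Agent.S05Lib

local notation "Qb" => AlgebraicClosure ℚ
local notation "GQ" => (AlgebraicClosure ℚ ≃ₐ[ℚ] AlgebraicClosure ℚ)

section General

variable {K : Type*} [Field K] [DecidableEq K] {A : ValuationSubring K}
  (W : WeierstrassCurve ↥A)

/-- on the generic fibre of a model over `A`: a torsion point of unit order in the zero component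
has a unit partial derivative -/
theorem mz2t_ns_of_tor_gen [(W.map A.subtype).IsElliptic] (WK : WeierstrassCurve K)
    (hK : W.map A.subtype = WK)
    (Wk : WeierstrassCurve (IsLocalRing.ResidueField ↥A))
    (hk : W.map (IsLocalRing.residue ↥A) = Wk) {n : ℕ} (hAn : A.valuation (n : K) = 1)
    (Q : WK.toAffine.Point) (hQ : n • Q = 0) (hI : Mz2tTor WK Wk Q) : S58lNs A WK Q := by
  subst hK hk
  rcases (mz2t_tor_iff_good W hAn Q hQ).mp hI with rfl | ⟨x, y, h, rfl, hns⟩
  · exact s58lNs_zero A _
  · have E : W.toAffine.Equation x y := mzgl_equation_of_map W h.1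
    rcases (mzgl_ns_iff W E).mp hns with h1 | h1
    · exact (s58lNs_some A _ h).mpr (Or.inl h1)
    · exact (s58lNs_some A _ h).mpr (Or.inr h1)

end General

/-- **(T2)**: inertia at `A ∣ ℓ` fixes the torsion points of order prime to `ℓ` of the zero
component at `A` -/
theorem mz2t_inert_fix (W : WeierstrassCurve ℤ) (hΔ : W.Δ ≠ 0) {ℓ n : ℕ} (hℓ : ℓ.Prime)
    (hℓn : ¬ ℓ ∣ n) (A : ValuationSubring Qb) (hA : A.LiesOverPrime ℓ) {σ : GQ}
    (hσ : σ ∈ A.inertiaSubgroupIn ℚ)
    (Q : ((W.map (Int.castRingHom ℚ))⁄Qb).toAffine.Point) (hQ : n • Q = 0)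
    (hI : W.InZeroComponentAt A Q) : σ • Q = Q := by
  have hell := mzgl_isElliptic W hΔ
  have hAn : A.valuation ((n : ℕ) : Qb) = 1 := by
    have h := qv_valuation_intCast_eq_one A hℓ hA (n := (n : ℤ))
      (by intro h; exact hℓn (by exact_mod_cast h))
    simpa using h
  haveI : ((W.map (Int.castRingHom ↥A)).map A.subtype).IsElliptic := by
    rw [mzgl_map_subtype W A]
    exact hell
  have hns : S58lNs A ((W.map (Int.castRingHom ℚ))⁄Qb) Q :=
    mz2t_ns_of_tor_gen (W.map (Int.castRingHom ↥A)) _ (mzgl_map_subtype W A) _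
      (mzgl_map_residue W A) hAn Q hQ hI
  exact s58l_inertia_fix W hΔ hℓ hℓn A hA hσ Q hQ hns

end Fermat.Agent.Mazur2
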